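/-
GATE-E / GE9-ETA-UQ3 (helper37), file 1: **`U_q` on the image of the three degeneracy maps**
`Hom(Γ₀(N), A) → Hom(Γ₀(N q q), A)` (`q ∤ N` prime; any coefficients `A`):

    U_q (res' (res φ))     + res' (res_δ φ) = res' (res (T_q φ)),
    U_q (res' (res_δ φ))   = q • res' (res φ),
    U_q (res_δ' (res_δ φ)) = q • res' (res_δ φ),

and `res_δ` commutes with `T_ℓ` at EVERY level (`ℓ ∤ M q`; no hypothesis `q ∤ M`).
Coset matching by helper65's `op_eq_of_reps`: `δ α_x = q T^x`, `δ T^m = T^{q m} δ`.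
-/
import Fermat.Agent.GM.B5.UqSquare
import Fermat.Agent.GM.B5.WT
import Fermat.Agent.GB.B5.Betti.SysTools

set_option autoImplicit false
set_option linter.unusedSectionVars false

open scoped MatrixGroups
open CongruenceSubgroup Matrix Matrix.SpecialLinearGroup ModularCurve.Period
open P2MW.S_ModularForm_heckeT_slash_eq_self_of_mem_Gamma0.ModularForm.HeckeSlashInvariance
open P2MW.S_ModularForm_heckeT_slash_eq_self_of_mem_Gamma0.ModularForm
open Fermat.Agent.S16_helper49 Fermat.Agent.GM.Amalgam Fermat.Agent.GM.B Fermat.Agent.GM.B5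
open Fermat.Agent.GB.B5.Betti
open ModularForm
open scoped OnePoint

namespace Fermat.Agent.GE9.Adj3U

/-! ### generalities on coset systems -/

section Generic

variable {H G : Type*} [Group H] [Group G] {emb : H →* G} {Γ₁ Γ₂ : Subgroup H}

/-- the system of `card ι • id` -/
def nSys (emb : H →* G) (Γ : Subgroup H) (ι : Type) [Fintype ι] : CosetSys emb Γ Γ where
  ι := ι
  a _ := 1
  σ _ := 1
  c g _ := g
  rel g _ := by rw [one_mul, mul_one]
  hσ _ _ _ := rfl
  hc _ _ _ := rfl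

theorem nSys_op (Γ : Subgroup H) (ι : Type) [Fintype ι] {A : Type*} [AddCommGroup A]
    (φ : Additive Γ →+ A) : (nSys emb Γ ι).op A φ = Fintype.card ι • φ := by
  refine AddMonoidHom.ext fun g => ?_
  obtain ⟨g, rfl⟩ : ∃ g' : Γ, Additive.ofMul g' = g := ⟨Additive.toMul g, rfl⟩
  rw [CosetSys.op_apply, AddMonoidHom.smul_apply]
  show ∑ _i : ι, φ (Additive.ofMul g) = _
  rw [Finset.sum_const, Finset.card_univ]

/-- `Unit × Unit` has a unique element -/
@[reducible] def uniqueUnitProd : Unique (Unit × Unit) := ⟨⟨((), ())⟩, fun _ => rfl⟩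

/-- **all representatives in the (central multiple of the) coset of a single-representative
system** : the operator is `card •` the single operator -/
theorem op_eq_card_smul_of_reps (S₀ S' : CosetSys emb Γ₁ Γ₂) [Unique S₀.ι]
    (hemb : Function.Injective emb) (z : G) (hz : ∀ x : G, z * x = x * z) (γ : S'.ι → Γ₁)
    (hrep : ∀ i, S'.a i = z * emb ((γ i : Γ₁) : H) * S₀.a default)
    {A : Type*} [AddCommGroup A] (φ : Additive Γ₁ →+ A) :
    S'.op A φ = Fintype.card S'.ι • S₀.op A φ := by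
  have h := op_eq_of_reps (S₀.comp (nSys emb Γ₂ S'.ι)) S' hemb (Equiv.uniqueProd S'.ι S₀.ι) z hz
    (fun p => γ p.2) ?_ φ
  · rw [h, CosetSys.op_comp, nSys_op]
  · rintro ⟨u, i⟩
    show S'.a i = z * emb ((γ i : Γ₁) : H) * (S₀.a u * 1)
    rw [mul_one, hrep i, Unique.eq_default u]

end Generic

/-! ### matrices -/

section Mat

variable {q : ℕ} [Fact q.Prime]

/-- `δ α_k = q T^k` -/
theorem dlt_mul_heckeMatrix (k : ℕ) : dlt q * heckeMatrix q k = zq q * embR (trZ (k : ℤ)) := by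
  have hq : q ≠ 0 := q_ne_zero'
  ext a b
  fin_cases a <;> fin_cases b <;>
    simp [hq, zq, trZ, Matrix.mul_apply, Fin.sum_univ_two, Matrix.natCast_apply]

/-- `δ T^m = T^{q m} δ` -/
theorem dlt_mul_trZ (m : ℤ) : dlt q * embR (trZ m) = embR (trZ ((q : ℤ) * m)) * dlt q := by
  have hq : q ≠ 0 := q_ne_zero'
  ext a b
  fin_cases a <;> fin_cases b <;>
    simp [hq, trZ, Matrix.mul_apply, Fin.sum_univ_two]

end Mat

/-! ### `U_q` and the degeneracy maps -/

section UQ

variable {N q : ℕ} [Fact q.Prime] {A : Type*} [AddCommGroup A]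

theorem dvd_level2 : q ∣ N * q * q := Dvd.intro_left (N * q) rfl

/-- **`U_q ∘ res' ∘ res_δ = q • res' ∘ res`** -/
theorem cohU_res_resD (φ : Additive (Gamma0 N) →+ A) :
    cohU (dvd_level2 (N := N) (q := q)) A (res A (N * q) q (resD A N q φ))
      = q • res A (N * q) q (res A N q φ) := by
  rw [← uSys_op]
  unfold res resD
  rw [← CosetSys.op_comp (resDSys N q) (resSys (N * q) q) φ,
    ← CosetSys.op_comp _ (uSys (dvd_level2 (N := N) (q := q))) φ,
    ← CosetSys.op_comp (resSys N q) (resSys (N * q) q) φ]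
  have : Unique ((resSys N q).comp (resSys (N * q) q)).ι := uniqueUnitProd
  rw [op_eq_card_smul_of_reps ((resSys N q).comp (resSys (N * q) q))
    (((resDSys N q).comp (resSys (N * q) q)).comp (uSys (dvd_level2 (N := N) (q := q))))
    embR_injective (zq q) (zq_comm q)
    (fun p => (⟨trZ ((p.2.val : ℕ) : ℤ), trZ_mem N _⟩ : Gamma0 N)) ?_ φ]
  · congr 1
    show Fintype.card ((Unit × Unit) × ZMod q) = q
    rw [Fintype.card_prod, Fintype.card_prod, Fintype.card_unit, one_mul, one_mul, ZMod.card]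
  · rintro ⟨⟨u, u'⟩, (x : ZMod q)⟩
    show (dlt q * 1) * heckeMatrix q x.val = zq q * embR (trZ ((x.val : ℕ) : ℤ)) * (1 * 1)
    rw [mul_one, mul_one, mul_one, dlt_mul_heckeMatrix]

/-- **`U_q ∘ res_δ' ∘ res_δ = q • res' ∘ res_δ`** -/
theorem cohU_resD_resD (φ : Additive (Gamma0 N) →+ A) :
    cohU (dvd_level2 (N := N) (q := q)) A (resD A (N * q) q (resD A N q φ))
      = q • res A (N * q) q (resD A N q φ) := by
  rw [← uSys_op]
  unfold res resD
  rw [← CosetSys.op_comp (resDSys N q) (resDSys (N * q) q) φ,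
    ← CosetSys.op_comp _ (uSys (dvd_level2 (N := N) (q := q))) φ,
    ← CosetSys.op_comp (resDSys N q) (resSys (N * q) q) φ]
  have : Unique ((resDSys N q).comp (resSys (N * q) q)).ι := uniqueUnitProd
  rw [op_eq_card_smul_of_reps ((resDSys N q).comp (resSys (N * q) q))
    (((resDSys N q).comp (resDSys (N * q) q)).comp (uSys (dvd_level2 (N := N) (q := q))))
    embR_injective (zq q) (zq_comm q)
    (fun p => (⟨trZ ((q : ℤ) * ((p.2.val : ℕ) : ℤ)), trZ_mem N _⟩ : Gamma0 N)) ?_ φ]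
  · congr 1
    show Fintype.card ((Unit × Unit) × ZMod q) = q
    rw [Fintype.card_prod, Fintype.card_prod, Fintype.card_unit, one_mul, one_mul, ZMod.card]
  · rintro ⟨⟨u, u'⟩, (x : ZMod q)⟩
    show (dlt q * dlt q) * heckeMatrix q x.val
      = zq q * embR (trZ ((q : ℤ) * ((x.val : ℕ) : ℤ))) * (dlt q * 1)
    rw [mul_one, mul_assoc, dlt_mul_heckeMatrix, ← mul_assoc, ← zq_comm, mul_assoc, dlt_mul_trZ,
      mul_assoc]

/-- index bijection for `T_q = U_q + δ` -/
def eT (q : ℕ) : OnePoint (ZMod q) × (Unit × Unit) ≃ ((Unit × Unit) × ZMod q) ⊕ (Unit × Unit) where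
  toFun p := p.1.elim (Sum.inr ((), ())) (fun x => Sum.inl (((), ()), x))
  invFun := Sum.elim (fun p => ((p.2 : OnePoint (ZMod q)), ((), ()))) (fun _ => (∞, ((), ())))
  left_inv := by
    rintro ⟨y, ⟨⟩, ⟨⟩⟩
    induction y using OnePoint.rec <;> rfl
  right_inv := by
    rintro (⟨⟨⟨⟩, ⟨⟩⟩, x⟩ | ⟨⟨⟩, ⟨⟩⟩) <;> rfl

/-- **`U_q ∘ res' ∘ res + res' ∘ res_δ = res' ∘ res ∘ T_q`** -/
theorem cohU_res_res_add (hqN : ¬ q ∣ N) (φ : Additive (Gamma0 N) →+ A) :
    cohU (dvd_level2 (N := N) (q := q)) A (res A (N * q) q (res A N q φ))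
        + res A (N * q) q (resD A N q φ)
      = res A (N * q) q (res A N q (cohT hqN A φ)) := by
  rw [← uSys_op, ← heckeSys_op]
  unfold res resD
  rw [← CosetSys.op_comp (resSys N q) (resSys (N * q) q) φ,
    ← CosetSys.op_comp _ (uSys (dvd_level2 (N := N) (q := q))) φ,
    ← CosetSys.op_comp (resDSys N q) (resSys (N * q) q) φ,
    ← CosetSys.op_comp (resSys N q) (resSys (N * q) q) ((heckeSys hqN).op A φ),
    ← CosetSys.op_comp (heckeSys hqN) _ φ, ← sumSys_op]
  refine op_eq_of_reps ((heckeSys hqN).comp ((resSys N q).comp (resSys (N * q) q)))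
    (sumSys (((resSys N q).comp (resSys (N * q) q)).comp (uSys (dvd_level2 (N := N) (q := q))))
      ((resDSys N q).comp (resSys (N * q) q))) embR_injective (eT q) 1
    (fun x => by rw [one_mul, mul_one]) (fun _ => 1) ?_ φ
  rintro ⟨y, ⟨⟩, ⟨⟩⟩
  induction y using OnePoint.rec with
  | infty =>
    show dlt q * 1 = 1 * embR ((1 : Gamma0 N) : SL(2, ℤ)) * (heckeRep q ∞ * (1 * 1))
    simp only [Subgroup.coe_one, map_one, heckeRep_infty, mul_one, one_mul]
  | coe x =>
    show (1 * 1) * heckeMatrix q x.val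
      = 1 * embR ((1 : Gamma0 N) : SL(2, ℤ)) * (heckeRep q (x : OnePoint (ZMod q)) * (1 * 1))
    simp only [Subgroup.coe_one, map_one, heckeRep_coe, mul_one, one_mul]

end UQ

/-! ### `res_δ` commutes with `T_ℓ` at every level -/

section TL

variable {M q ℓ : ℕ} [Fact q.Prime] [Fact ℓ.Prime] {A : Type*} [AddCommGroup A]

/-- the translation of `WT.heckeRep_mulQ_mul_dlt` -/
noncomputable def trOf (hqℓ : (q : ZMod ℓ) ≠ 0) (x : OnePoint (ZMod ℓ)) : ℤ :=
  (heckeRep_mulQ_mul_dlt (q := q) hqℓ x).choose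

theorem trOf_spec (hqℓ : (q : ZMod ℓ) ≠ 0) (x : OnePoint (ZMod ℓ)) :
    heckeRep ℓ (mulQ hqℓ x) * dlt q = embR (trZ (trOf hqℓ x)) * (dlt q * heckeRep ℓ x) :=
  (heckeRep_mulQ_mul_dlt (q := q) hqℓ x).choose_spec

/-- **`res_δ` commutes with `T_ℓ`** (`ℓ ∤ M q`; `q ∣ M` allowed) -/
theorem resD_cohT_gen (h₁ : ¬ ℓ ∣ M) (h₂ : ¬ ℓ ∣ M * q) (φ : Additive (Gamma0 M) →+ A) :
    resD A M q (cohT h₁ A φ) = cohT h₂ A (resD A M q φ) := by
  have hqℓ : (q : ZMod ℓ) ≠ 0 := natCast_ne_zero_of_not_dvd_mul h₂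
  rw [← heckeSys_op, ← heckeSys_op]
  unfold resD
  rw [← CosetSys.op_comp, ← CosetSys.op_comp]
  refine op_eq_of_reps ((resDSys M q).comp (heckeSys h₂)) ((heckeSys h₁).comp (resDSys M q))
    embR_injective
    ((Equiv.prodComm Unit (OnePoint (ZMod ℓ))).trans ((mulQ hqℓ).prodCongr (Equiv.refl Unit)))
    1 (fun x => by rw [one_mul, mul_one])
    (fun p => (⟨trZ (trOf hqℓ p.2), trZ_mem M _⟩ : Gamma0 M)) ?_ φ
  rintro ⟨⟨⟩, (x : OnePoint (ZMod ℓ))⟩
  show heckeRep ℓ (mulQ hqℓ x) * dlt q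
    = 1 * embR (trZ (trOf hqℓ x)) * (dlt q * heckeRep ℓ x)
  rw [one_mul]
  exact trOf_spec hqℓ x

end TL

end Fermat.Agent.GE9.Adj3U
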