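/-
GATE-E / GE9-ETA-UQ3 (helper37), file 2: **`U_q` and `T_ℓ` on the image of `α₃`**, in the vocabulary
of helper2's `GE9/Adj3/Main` (`al0 al1 al2 alpha3 tq`), on the lattices `Λ_M = Lam M`.

`q ∤ N` prime, `U_q = latT (N q q) q`:

* `uq_al0 : U_q (α₀ x) = α₀ (T_q x) − α₁ x`, `uq_al1 : U_q (α₁ x) = q • α₀ x`,
  `uq_al2 : U_q (α₂ x) = q • α₁ x`;
* `uq_alpha3 : U_q (α₃ u) = α₀ (T_q (u 0) + q • u 1) + α₁ (q • u 2 − u 0)`;
* **`uq_alpha3_v3`** : `T_q x = a • x ⟹ U_q (α₃ (v3 q a ⊗ x)) = 0` — the image of `v3 ⊗ Λ[𝔭]` is killed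
  by `U_q` (helper2 6888 §1);
* **`latT_alpha3`** : `T_ℓ (α₃ u) = α₃ (T_ℓ ∘ u)` for every prime `ℓ ∤ N q`.
-/
import Fermat.Agent.GE9.Adj3.Main
import Fermat.Agent.GE9.Adj3U.Uq3
import Fermat.Agent.GM.B.Equivariance

set_option autoImplicit false
set_option linter.unusedSectionVars false

open scoped MatrixGroups
open CongruenceSubgroup Matrix Matrix.SpecialLinearGroup ModularCurve.Period
open Fermat.Agent.S16_helper49 Fermat.Agent.GM.Amalgam Fermat.Agent.GM.B Fermat.Agent.GM.Asm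
  Fermat.Agent.GJ.J2.Lat
open Fermat.Agent.GE9.Adj3

namespace Fermat.Agent.GE9.Adj3U

variable {N q : ℕ} [Fact q.Prime] [NeZero N] [NeZero (N * q)] [NeZero (N * q * q)]

/-- `latT (N q q) q` is the cohomological `U_q` -/
theorem coe_latT_self (hq : q.Prime) (z : Lam (N * q * q)) :
    ((latT (N * q * q) (⟨q, hq⟩ : Nat.Primes) z : Lam (N * q * q)) :
        Additive (Gamma0 (N * q * q)) →+ ℤ)
      = cohU (dvd_level2 (N := N) (q := q)) ℤ (z : Additive (Gamma0 (N * q * q)) →+ ℤ) := by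
  show cohGen (N * q * q) ℤ (⟨q, hq⟩ : Nat.Primes) z.1 = _
  have hdvd : (((⟨q, hq⟩ : Nat.Primes) : ℕ)) ∣ N * q * q := dvd_level2
  rw [cohGen_of_dvd (N * q * q) ℤ (⟨q, hq⟩ : Nat.Primes) hdvd]

/-- **`U_q (α₀ x) = α₀ (T_q x) − α₁ x`** -/
theorem uq_al0 (hqN : ¬ q ∣ N) (hq : q.Prime) (x : Lam N) :
    latT (N * q * q) (⟨q, hq⟩ : Nat.Primes) (al0 N q x) = al0 N q (tq hqN x) - al1 N q x := by
  rw [eq_sub_iff_add_eq]
  apply Subtype.ext
  rw [Submodule.coe_add, coe_latT_self hq]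
  show cohU dvd_level2 ℤ (res ℤ (N * q) q (res ℤ N q x.1)) + res ℤ (N * q) q (resD ℤ N q x.1)
    = res ℤ (N * q) q (res ℤ N q ((tq hqN x : Lam N) : Additive (Gamma0 N) →+ ℤ))
  rw [cohU_res_res_add hqN]
  congr 2

/-- **`U_q (α₁ x) = q • α₀ x`** -/
theorem uq_al1 (hq : q.Prime) (x : Lam N) :
    latT (N * q * q) (⟨q, hq⟩ : Nat.Primes) (al1 N q x) = q • al0 N q x := by
  apply Subtype.ext
  rw [coe_latT_self hq]
  show cohU dvd_level2 ℤ (res ℤ (N * q) q (resD ℤ N q x.1)) = q • res ℤ (N * q) q (res ℤ N q x.1)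
  exact cohU_res_resD x.1

/-- **`U_q (α₂ x) = q • α₁ x`** -/
theorem uq_al2 (hq : q.Prime) (x : Lam N) :
    latT (N * q * q) (⟨q, hq⟩ : Nat.Primes) (al2 N q x) = q • al1 N q x := by
  apply Subtype.ext
  rw [coe_latT_self hq]
  show cohU dvd_level2 ℤ (resD ℤ (N * q) q (resD ℤ N q x.1))
    = q • res ℤ (N * q) q (resD ℤ N q x.1)
  exact cohU_resD_resD x.1

/-- **`U_q ∘ α₃`** -/
theorem uq_alpha3 (hqN : ¬ q ∣ N) (hq : q.Prime) (u : Fin 3 → Lam N) :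
    latT (N * q * q) (⟨q, hq⟩ : Nat.Primes) (alpha3 N q u)
      = al0 N q (tq hqN (u 0) + q • u 1) + al1 N q (q • u 2 - u 0) := by
  rw [alpha3_apply, map_add, map_add, uq_al0 hqN hq, uq_al1 hq, uq_al2 hq, map_add, map_sub,
    map_nsmul, map_nsmul]
  abel

/-- **`U_q` kills `α₃ (v3 q a ⊗ x)` for a `T_q`-eigenvector `x` of eigenvalue `a`** -/
theorem uq_alpha3_v3 (hqN : ¬ q ∣ N) (hq : q.Prime) (x : Lam N) (a : ℤ)
    (hT : tq hqN x = a • x) :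
    latT (N * q * q) (⟨q, hq⟩ : Nat.Primes)
      (alpha3 N q (fun m => Fermat.Agent.GE9.Eta.v3 (q : ℤ) a m • x)) = 0 := by
  rw [uq_alpha3 hqN hq]
  have h0 : Fermat.Agent.GE9.Eta.v3 (q : ℤ) a 0 = (q : ℤ) := rfl
  have h1 : Fermat.Agent.GE9.Eta.v3 (q : ℤ) a 1 = -a := rfl
  have h2 : Fermat.Agent.GE9.Eta.v3 (q : ℤ) a 2 = 1 := rfl
  simp only [h0, h1, h2]
  have e1 : tq hqN ((q : ℤ) • x) + q • (-a • x) = 0 := by
    rw [map_zsmul, hT]
    module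
  have e2 : q • ((1 : ℤ) • x) - (q : ℤ) • x = 0 := by
    module
  rw [e1, e2, map_zero, map_zero, add_zero]

/-- **`T_ℓ`-equivariance of `α₃`** (`ℓ ∤ N q`) -/
theorem latT_alpha3 (l : Nat.Primes) (hl : ¬ (l : ℕ) ∣ N * q) (u : Fin 3 → Lam N) :
    latT (N * q * q) l (alpha3 N q u) = alpha3 N q (fun m => latT N l (u m)) := by
  have : Fact (l : ℕ).Prime := ⟨l.2⟩
  have hlN : ¬ (l : ℕ) ∣ N := not_dvd_of_not_dvd_mul hl
  have hl2 : ¬ (l : ℕ) ∣ N * q * q := by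
    intro h
    rcases (Nat.Prime.dvd_mul l.2).mp h with h1 | h1
    · exact hl h1
    · exact hl (dvd_mul_of_dvd_right h1 N)
  have key0 : ∀ x : Lam N, latT (N * q * q) l (al0 N q x) = al0 N q (latT N l x) := fun x => by
    apply Subtype.ext
    rw [coe_latT_eq_cohT l hl2]
    show cohT hl2 ℤ (res ℤ (N * q) q (res ℤ N q x.1))
      = res ℤ (N * q) q (res ℤ N q ((latT N l x : Lam N) : Additive (Gamma0 N) →+ ℤ))
    rw [coe_latT_eq_cohT l hlN, ← res_cohT hl2, ← res_cohT hl]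
  have key1 : ∀ x : Lam N, latT (N * q * q) l (al1 N q x) = al1 N q (latT N l x) := fun x => by
    apply Subtype.ext
    rw [coe_latT_eq_cohT l hl2]
    show cohT hl2 ℤ (res ℤ (N * q) q (resD ℤ N q x.1))
      = res ℤ (N * q) q (resD ℤ N q ((latT N l x : Lam N) : Additive (Gamma0 N) →+ ℤ))
    rw [coe_latT_eq_cohT l hlN, ← res_cohT hl2, ← resD_cohT_gen hlN hl]
  have key2 : ∀ x : Lam N, latT (N * q * q) l (al2 N q x) = al2 N q (latT N l x) := fun x => by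
    apply Subtype.ext
    rw [coe_latT_eq_cohT l hl2]
    show cohT hl2 ℤ (resD ℤ (N * q) q (resD ℤ N q x.1))
      = resD ℤ (N * q) q (resD ℤ N q ((latT N l x : Lam N) : Additive (Gamma0 N) →+ ℤ))
    rw [coe_latT_eq_cohT l hlN, ← resD_cohT_gen hl hl2, ← resD_cohT_gen hlN hl]
  rw [alpha3_apply, alpha3_apply, map_add, map_add, key0, key1, key2]

end Fermat.Agent.GE9.Adj3U
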