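/-
GATE-E / GE9-ETA-UQ3 (helper37), file 3 = helper2's leaf Z4, case `ℓ ∣ N`:
**`res` and `res_δ` commute with `U_ℓ`** (`ℓ ≠ q` primes, `ℓ ∣ M`), at every level `M`, and
`α₃` is equivariant for EVERY prime `ℓ ≠ q`.

* `res_cohU_gen`  : `res (U_ℓ φ) = U_ℓ (res φ)`  (same representatives `α_x`);
* `resD_cohU_gen` : `res_δ (U_ℓ φ) = U_ℓ (res_δ φ)`  (`α_{q x} δ = T^m δ α_x`, helper85's
  `WT.heckeRep_mulQ_mul_dlt`, reindexing `ZMod ℓ` by the unit `q`);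
* `latT_alpha3_dvd`, **`latT_alpha3_ne`** : `latT (N q q) ℓ (α₃ u) = α₃ (latT N ℓ ∘ u)` for every
  prime `ℓ ≠ q` (helper2's `alpha3`).
-/
import Fermat.Agent.GE9.Adj3U.Main

set_option autoImplicit false
set_option linter.unusedSectionVars false

open scoped MatrixGroups
open CongruenceSubgroup Matrix Matrix.SpecialLinearGroup ModularCurve.Period
open P2MW.S_ModularForm_heckeT_slash_eq_self_of_mem_Gamma0.ModularForm.HeckeSlashInvariance
open P2MW.S_ModularForm_heckeT_slash_eq_self_of_mem_Gamma0.ModularForm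
open Fermat.Agent.S16_helper49 Fermat.Agent.GM.Amalgam Fermat.Agent.GM.B Fermat.Agent.GM.B5
  Fermat.Agent.GM.Asm Fermat.Agent.GJ.J2.Lat
open Fermat.Agent.GB.B5.Betti
open Fermat.Agent.GE9.Adj3
open ModularForm
open scoped OnePoint

namespace Fermat.Agent.GE9.Adj3U

section Hom

variable {M q ℓ : ℕ} [Fact q.Prime] [Fact ℓ.Prime] {A : Type*} [AddCommGroup A]

/-- **`res` commutes with `U_ℓ`** -/
theorem res_cohU_gen (h₁ : ℓ ∣ M) (h₂ : ℓ ∣ M * q) (φ : Additive (Gamma0 M) →+ A) :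
    res A M q (cohU h₁ A φ) = cohU h₂ A (res A M q φ) := by
  rw [← uSys_op, ← uSys_op]
  unfold res
  rw [← CosetSys.op_comp, ← CosetSys.op_comp]
  refine op_eq_of_reps ((resSys M q).comp (uSys h₂)) ((uSys h₁).comp (resSys M q))
    embR_injective (Equiv.prodComm Unit (ZMod ℓ)) 1 (fun x => by rw [one_mul, mul_one])
    (fun _ => 1) ?_ φ
  rintro ⟨⟨⟩, (x : ZMod ℓ)⟩
  show heckeMatrix ℓ x.val * 1
    = 1 * embR ((1 : Gamma0 M) : SL(2, ℤ)) * (1 * heckeMatrix ℓ x.val)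
  simp only [Subgroup.coe_one, map_one, mul_one, one_mul]

/-- **`res_δ` commutes with `U_ℓ`** (`ℓ ≠ q`) -/
theorem resD_cohU_gen (h₁ : ℓ ∣ M) (h₂ : ℓ ∣ M * q) (hqℓ : (q : ZMod ℓ) ≠ 0)
    (φ : Additive (Gamma0 M) →+ A) :
    resD A M q (cohU h₁ A φ) = cohU h₂ A (resD A M q φ) := by
  rw [← uSys_op, ← uSys_op]
  unfold resD
  rw [← CosetSys.op_comp, ← CosetSys.op_comp]
  refine op_eq_of_reps ((resDSys M q).comp (uSys h₂)) ((uSys h₁).comp (resDSys M q))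
    embR_injective
    ((Equiv.prodComm Unit (ZMod ℓ)).trans
      ((Equiv.mulLeft₀ (q : ZMod ℓ) hqℓ).prodCongr (Equiv.refl Unit)))
    1 (fun x => by rw [one_mul, mul_one])
    (fun p : Unit × ZMod ℓ =>
      (⟨trZ (trOf hqℓ ((p.2 : ZMod ℓ) : OnePoint (ZMod ℓ))), trZ_mem M _⟩ : Gamma0 M))
    ?_ φ
  rintro ⟨⟨⟩, (x : ZMod ℓ)⟩
  show heckeMatrix ℓ ((q : ZMod ℓ) * x).val * dlt q
    = 1 * embR (trZ (trOf hqℓ ((x : ZMod ℓ) : OnePoint (ZMod ℓ)))) * (dlt q * heckeMatrix ℓ x.val)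
  rw [one_mul]
  exact trOf_spec hqℓ ((x : ZMod ℓ) : OnePoint (ZMod ℓ))

end Hom

section Lam

variable {N q : ℕ} [Fact q.Prime] [NeZero N] [NeZero (N * q)] [NeZero (N * q * q)]

/-- `latT` at a prime dividing the level is the cohomological `U_l` -/
theorem coe_latT_eq_cohU {M : ℕ} [NeZero M] (l : Nat.Primes) [Fact (l : ℕ).Prime]
    (h : (l : ℕ) ∣ M) (x : Lam M) :
    ((latT M l x : Lam M) : Additive (Gamma0 M) →+ ℤ) =
      cohU h ℤ (x : Additive (Gamma0 M) →+ ℤ) := by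
  rw [coe_latT, cohGen_of_dvd M ℤ l h]

/-- **`U_ℓ`-equivariance of `α₃`** (`ℓ ∣ N`) -/
theorem latT_alpha3_dvd (l : Nat.Primes) (hlN : (l : ℕ) ∣ N) (hlq : (l : ℕ) ≠ q)
    (u : Fin 3 → Lam N) :
    latT (N * q * q) l (alpha3 N q u) = alpha3 N q (fun m => latT N l (u m)) := by
  have : Fact (l : ℕ).Prime := ⟨l.2⟩
  have hl1 : (l : ℕ) ∣ N * q := Dvd.dvd.mul_right hlN q
  have hl2 : (l : ℕ) ∣ N * q * q := Dvd.dvd.mul_right hl1 q
  have hqℓ : (q : ZMod (l : ℕ)) ≠ 0 := by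
    intro h0
    have h1 : (l : ℕ) ∣ q := (ZMod.natCast_eq_zero_iff q l).mp h0
    exact hlq ((Nat.prime_dvd_prime_iff_eq l.2 Fact.out).mp h1)
  have key0 : ∀ x : Lam N, latT (N * q * q) l (al0 N q x) = al0 N q (latT N l x) := fun x => by
    apply Subtype.ext
    rw [coe_latT_eq_cohU l hl2]
    show cohU hl2 ℤ (res ℤ (N * q) q (res ℤ N q x.1))
      = res ℤ (N * q) q (res ℤ N q ((latT N l x : Lam N) : Additive (Gamma0 N) →+ ℤ))
    rw [coe_latT_eq_cohU l hlN, ← res_cohU_gen hl1 hl2, ← res_cohU_gen hlN hl1]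
  have key1 : ∀ x : Lam N, latT (N * q * q) l (al1 N q x) = al1 N q (latT N l x) := fun x => by
    apply Subtype.ext
    rw [coe_latT_eq_cohU l hl2]
    show cohU hl2 ℤ (res ℤ (N * q) q (resD ℤ N q x.1))
      = res ℤ (N * q) q (resD ℤ N q ((latT N l x : Lam N) : Additive (Gamma0 N) →+ ℤ))
    rw [coe_latT_eq_cohU l hlN, ← res_cohU_gen hl1 hl2, ← resD_cohU_gen hlN hl1 hqℓ]
  have key2 : ∀ x : Lam N, latT (N * q * q) l (al2 N q x) = al2 N q (latT N l x) := fun x => by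
    apply Subtype.ext
    rw [coe_latT_eq_cohU l hl2]
    show cohU hl2 ℤ (resD ℤ (N * q) q (resD ℤ N q x.1))
      = resD ℤ (N * q) q (resD ℤ N q ((latT N l x : Lam N) : Additive (Gamma0 N) →+ ℤ))
    rw [coe_latT_eq_cohU l hlN, ← resD_cohU_gen hl1 hl2 hqℓ, ← resD_cohU_gen hlN hl1 hqℓ]
  rw [alpha3_apply, alpha3_apply, map_add, map_add, key0, key1, key2]

/-- **`α₃` is equivariant for every prime `ℓ ≠ q`** -/
theorem latT_alpha3_ne (l : Nat.Primes) (hlq : (l : ℕ) ≠ q) (u : Fin 3 → Lam N) :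
    latT (N * q * q) l (alpha3 N q u) = alpha3 N q (fun m => latT N l (u m)) := by
  by_cases hlN : (l : ℕ) ∣ N
  · exact latT_alpha3_dvd l hlN hlq u
  · refine latT_alpha3 l ?_ u
    intro h
    rcases (Nat.Prime.dvd_mul l.2).mp h with h1 | h1
    · exact hlN h1
    · exact hlq ((Nat.prime_dvd_prime_iff_eq l.2 Fact.out).mp h1)

end Lam

end Fermat.Agent.GE9.Adj3U
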